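import Fermat.Agent.MU.S56.W2.EC.Defs
import Fermat.Agent.MU.F4.Cf.Final
import Fermat.Agent.MU.F4.Loc.Datum.Pack

section MergeWrap_S56_W2_EC_Pack -- from S56/W2/EC/Pack.lean

set_option autoImplicit false

namespace Fermat.Agent.S56.EC

open Fermat.Agent.F4 Fermat.Agent.F4Cf ExtCitation CategoryTheory groupCohomology

/-- The local packs (LOC) for a root map `φ : μ_p → E`. -/
structure ECPre (p : ℕ) [Fact p.Prime] (S : Finset Nat.Primes) where
  φ : Fp1 p →+ EsRep S
  hφ : IsRootMap φ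
  P : ∀ q : ↥S, LocPack p S φ q.1

namespace ECPre

variable {p : ℕ} [Fact p.Prime] {S : Finset Nat.Primes} (𝒬 : ECPre p S)

/-- The local data. -/
noncomputable abbrev loc (q : ↥S) : LocalDatum p S q.1 := (𝒬.P q).loc

/-- The algebraic part of the global datum: `KJ = ∏ coInd K_q`, `KC = KJ / μ_p`. -/
noncomputable abbrev coind (hpS : pPrime p ∈ S) : CoindDatum p S 𝒬.loc :=
  coindDatum hpS 𝒬.loc

end ECPre

/-- **The rich global datum**: the local packs, the invariant of `KC`, class field theory for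
`KC` (the fields of `GlobalDatum`), and the class formation of `C = J / E`. -/
structure ECPack (p : ℕ) [Fact p.Prime] (S : Finset Nat.Primes) (hpS : pPrime p ∈ S)
    extends ECPre p S where
  inv : HH2 (levelsS S) (toECPre.coind hpS).KC →ₗ[ZMod p] ZMod p
  inv_inj : Function.Injective inv
  recip : ∀ z : ↥(ZZ2 (levelsS S) (toECPre.coind hpS).KJ),
    inv (HH2π _ _ ((toECPre.coind hpS).g.mapZZ2 _ z)) =
      ∑ q : ↥S, (toECPre.loc q).inv (HH2π _ _ (((toECPre.coind hpS).ev q).mapZZ2 _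
        ⟨resT2 (primeLocalToGlobal q.1) (toECPre.coind hpS).KJ z.1,
          resT2_mem_ZZ2 _ _ (toECPre.coind hpS).KJ z.2⟩))
  a2inj : ∀ U : Subgroup GQ, (levelsS S).IsOpen U → ¬ p ∣ U.index →
    A2Inj (levelsS S) (toECPre.coind hpS).KC (permRep (ZMod p) U) inv
  a1surj : ∀ (U : Subgroup GQ) (hU : (levelsS S).IsOpen U), ¬ p ∣ U.index →
    A1Surj (levelsS S) (toECPre.coind hpS).KC (permRep (ZMod p) U) inv (permRep_smooth _ hU)
      (permRep_finite _ hU)
  a1inj : ∀ (V : Subgroup GQ) (hV : V ∈ (levelsS S).sets),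
    A1Inj (levelsS S) (toECPre.coind hpS).KC (permRep (ZMod p) V) inv
      (permRep_smooth _ ((levelsS S).isOpen_of_mem hV))
      (permRep_finite _ ((levelsS S).isOpen_of_mem hV))
  finH1 : ∀ U : Subgroup GQ, (levelsS S).IsOpen U → ¬ p ∣ U.index →
    Module.Finite (ZMod p) (H1sm (levelsS S) (permRep (ZMod p) U))
  pcf : PCF p (levelsS S) (Crep S) (U0 p)

namespace ECPack

variable {p : ℕ} [Fact p.Prime] {S : Finset Nat.Primes} {hpS : pPrime p ∈ S}
  (Pk : ECPack p S hpS)

/-- `KJ = ∏_{q ∈ S} coInd K_q`. -/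
noncomputable abbrev KJ : Cx (ZMod p) GQ := coindKJ Pk.loc

/-- `KC = KJ / μ_p`. -/
noncomputable abbrev KC : Cx (ZMod p) GQ := coindKC Pk.loc (isSmooth_Fp1 S hpS)

/-- The global datum of the pack. -/
noncomputable def datum : GlobalDatum p S :=
  GlobalDatum.ofCoind (Pk.coind hpS) Pk.inv Pk.recip Pk.a2inj Pk.a1surj Pk.a1inj Pk.finH1

lemma datum_KC : Pk.datum.KC = Pk.KC := rfl

lemma datum_KJ : Pk.datum.KJ = Pk.KJ := rfl

lemma datum_loc : Pk.datum.loc = Pk.loc := rfl

/-- The universal-coefficient datum of `KJ` (for `J = Jrep S`). -/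
noncomputable abbrev datJ :=
  Fermat.Agent.F4Cf.datJ Pk.loc (fun q => (Pk.P q).dat) (fun q => (Pk.P q).smoothI)

/-- The hypothesis of the quotient construction (`E[p] = μ_p` inside `J`). -/
lemma quotHyp : Pk.datJ.QuotHyp (coindF Pk.loc (isSmooth_Fp1 S hpS)) (EinJ S) :=
  quotHyp_of_packs hpS Pk.hφ Pk.P

/-- The universal-coefficient datum of `KC` (for `C = Crep S = J / E`). -/
noncomputable abbrev datC := Pk.datJ.quot0 Pk.quotHyp

end ECPack

end Fermat.Agent.S56.EC
end MergeWrap_S56_W2_EC_Pack
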