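import Fermat.Agent.S56.W2.EC.FinCMod

section MergeWrap_S56_W2_EC_LatticeMod -- from S56/W2/EC/LatticeMod.lean

set_option autoImplicit false

noncomputable section

namespace Fermat.Agent.S56.EC

variable {p : ℕ} {C : Type} [Group C]
variable {M : Type} [AddCommGroup M] [DistribMulAction C M]

/-- A `C`-stable subgroup. -/
structure StabSub (C : Type) [Group C] (M : Type) [AddCommGroup M] [DistribMulAction C M] where
  /-- the subgroup -/
  sub : AddSubgroup M
  stable : ∀ (c : C) (x : M), x ∈ sub → c • x ∈ sub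

lemma smul_nsmul_comm' (c : C) (n : ℕ) (x : M) : c • (n • x) = n • (c • x) :=
  map_nsmul (DistribSMul.toAddMonoidHom M c) n x

/-- The subgroup `p B`. -/
def pMul (p : ℕ) (B : AddSubgroup M) : AddSubgroup M := B.map (nsmulAddMonoidHom p)

lemma mem_pMul {B : AddSubgroup M} {x : M} : x ∈ pMul p B ↔ ∃ b ∈ B, p • b = x := by
  unfold pMul
  rw [AddSubgroup.mem_map]
  rfl

lemma nsmul_mem_pMul {B : AddSubgroup M} {b : M} (hb : b ∈ B) : p • b ∈ pMul p B :=
  mem_pMul.mpr ⟨b, hb, rfl⟩

lemma pMul_le (B : AddSubgroup M) : pMul p B ≤ B := by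
  intro x hx
  obtain ⟨b, hb, rfl⟩ := mem_pMul.mp hx
  exact B.nsmul_mem hb p

lemma pMul_mono {A B : AddSubgroup M} (h : A ≤ B) : pMul p A ≤ pMul p B :=
  AddSubgroup.map_mono h

/-- The subgroup `B[p]`. -/
def pTor (p : ℕ) (B : AddSubgroup M) : AddSubgroup M := B ⊓ (nsmulAddMonoidHom p : M →+ M).ker

lemma mem_pTor {B : AddSubgroup M} {x : M} : x ∈ pTor p B ↔ x ∈ B ∧ p • x = 0 := by
  unfold pTor
  rw [AddSubgroup.mem_inf, AddMonoidHom.mem_ker]
  rfl

namespace StabSub

variable (B : StabSub C M)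

lemma stable_pMul (c : C) (x : M) (hx : x ∈ pMul p B.sub) : c • x ∈ pMul p B.sub := by
  obtain ⟨b, hb, rfl⟩ := mem_pMul.mp hx
  rw [smul_nsmul_comm']
  exact nsmul_mem_pMul (B.stable c b hb)

lemma stable_pTor (c : C) (x : M) (hx : x ∈ pTor p B.sub) : c • x ∈ pTor p B.sub := by
  obtain ⟨h1, h2⟩ := mem_pTor.mp hx
  refine mem_pTor.mpr ⟨B.stable c x h1, ?_⟩
  rw [← smul_nsmul_comm', h2, smul_zero]

/-- `B / pB`. -/
def modQ (p : ℕ) : SubQ p C M where
  bot := pMul p B.sub
  top := B.sub
  le := pMul_le B.sub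
  stable_bot := B.stable_pMul
  stable_top := B.stable
  killed := fun _ hx => nsmul_mem_pMul hx

/-- `B[p]`. -/
def torQ (p : ℕ) : SubQ p C M where
  bot := ⊥
  top := pTor p B.sub
  le := bot_le
  stable_bot := fun c x hx => by
    rw [AddSubgroup.mem_bot] at hx ⊢
    rw [hx, smul_zero]
  stable_top := B.stable_pTor
  killed := fun x hx => by
    rw [AddSubgroup.mem_bot]
    exact (mem_pTor.mp hx).2

end StabSub

variable [Module.Finite ℤ M]

/-- `χ(B) = d(B / pB) - d(B[p])`. -/
def chi (d : FinCMod p C → ℤ) (hp : p ≠ 0) (B : StabSub C M) : ℤ :=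
  d ((B.modQ p).obj hp) - d ((B.torQ p).obj hp)

/-- **Step (a)**: `B = A + pB` and multiplication by `p` is injective on `B / A`. -/
theorem chi_eq_of_primeTo {d : FinCMod p C → ℤ} (hd : IsAdditive d) (hp : p ≠ 0)
    (A B : StabSub C M) (hAB : A.sub ≤ B.sub)
    (hsurj : ∀ b ∈ B.sub, ∃ a ∈ A.sub, ∃ b' ∈ B.sub, b = a + p • b')
    (hinj : ∀ b ∈ B.sub, p • b ∈ A.sub → b ∈ A.sub) :
    chi d hp A = chi d hp B := by
  unfold chi
  have h1 : d ((A.modQ p).obj hp) = d ((B.modQ p).obj hp) := by
    refine hd.subQ_map hp _ _ (AddMonoidHom.id M) (fun _ _ => rfl) (fun x hx => hAB hx) ?_ ?_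
    · intro x hx
      constructor
      · intro h
        obtain ⟨b, hb, hbx⟩ := mem_pMul.mp h
        have hbA : b ∈ A.sub := hinj b hb (by rw [hbx]; exact hx)
        exact mem_pMul.mpr ⟨b, hbA, hbx⟩
      · intro h
        exact pMul_mono hAB h
    · intro y hy
      obtain ⟨a, ha, b', hb', rfl⟩ := hsurj y hy
      refine ⟨a, ha, ?_⟩
      simp only [AddMonoidHom.id_apply, add_sub_cancel_left]
      exact nsmul_mem_pMul hb'
  have h2 : d ((A.torQ p).obj hp) = d ((B.torQ p).obj hp) := by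
    refine hd.subQ_congr hp _ _ rfl ?_
    show pTor p A.sub = pTor p B.sub
    ext x
    rw [mem_pTor, mem_pTor]
    constructor
    · rintro ⟨h, h'⟩
      exact ⟨hAB h, h'⟩
    · rintro ⟨h, h'⟩
      exact ⟨hinj x h (by rw [h']; exact A.sub.zero_mem), h'⟩
  rw [h1, h2]

/-- **Step (b)**: `pB ≤ A ≤ B`. -/
theorem chi_eq_of_pMul_le {d : FinCMod p C → ℤ} (hd : IsAdditive d) (hp : p ≠ 0)
    (A B : StabSub C M) (hAB : A.sub ≤ B.sub) (hpB : pMul p B.sub ≤ A.sub) :
    chi d hp A = chi d hp B := by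
  -- the subquotients
  let QBA : SubQ p C M :=
    { bot := A.sub, top := B.sub, le := hAB, stable_bot := A.stable, stable_top := B.stable
      killed := fun x hx => hpB (nsmul_mem_pMul hx) }
  let QApB : SubQ p C M :=
    { bot := pMul p B.sub, top := A.sub, le := hpB, stable_bot := B.stable_pMul
      stable_top := A.stable
      killed := fun x hx => pMul_mono hAB (nsmul_mem_pMul hx) }
  let QpBpA : SubQ p C M :=
    { bot := pMul p A.sub, top := pMul p B.sub, le := pMul_mono hAB
      stable_bot := A.stable_pMul, stable_top := B.stable_pMul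
      killed := fun x hx => nsmul_mem_pMul (hpB hx) }
  have hstabAT : ∀ (c : C) (x : M), x ∈ A.sub ⊔ pTor p B.sub → c • x ∈ A.sub ⊔ pTor p B.sub := by
    intro c x hx
    obtain ⟨a, ha, t, ht, rfl⟩ := AddSubgroup.mem_sup.mp hx
    rw [smul_add]
    exact AddSubgroup.mem_sup.mpr ⟨_, A.stable c a ha, _, B.stable_pTor c t ht, rfl⟩
  have hATle : A.sub ⊔ pTor p B.sub ≤ B.sub :=
    sup_le hAB (fun x hx => (mem_pTor.mp hx).1)
  let QBAT : SubQ p C M :=
    { bot := A.sub ⊔ pTor p B.sub, top := B.sub, le := hATle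
      stable_bot := hstabAT, stable_top := B.stable
      killed := fun x hx => le_sup_left (a := A.sub) (hpB (nsmul_mem_pMul hx)) }
  let QATA : SubQ p C M :=
    { bot := A.sub, top := A.sub ⊔ pTor p B.sub, le := le_sup_left
      stable_bot := A.stable, stable_top := hstabAT
      killed := fun x hx => hpB (nsmul_mem_pMul (hATle hx)) }
  let QBtAt : SubQ p C M :=
    { bot := pTor p A.sub, top := pTor p B.sub
      le := fun x hx => mem_pTor.mpr ⟨hAB (mem_pTor.mp hx).1, (mem_pTor.mp hx).2⟩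
      stable_bot := A.stable_pTor, stable_top := B.stable_pTor
      killed := fun x hx => by
        rw [(mem_pTor.mp hx).2]
        exact (pTor p A.sub).zero_mem }
  -- (1) chain `pB ≤ A ≤ B`
  have e1 : d ((B.modQ p).obj hp) = d (QApB.obj hp) + d (QBA.obj hp) :=
    hd.subQ_chain hp QApB QBA (B.modQ p) rfl rfl rfl
  -- (2) chain `pA ≤ pB ≤ A`
  have e2 : d ((A.modQ p).obj hp) = d (QpBpA.obj hp) + d (QApB.obj hp) :=
    hd.subQ_chain hp QpBpA QApB (A.modQ p) rfl rfl rfl
  -- (3) multiplication by `p` : `B / (A + B[p]) ≅ pB / pA`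
  have e3 : d (QBAT.obj hp) = d (QpBpA.obj hp) := by
    refine hd.subQ_map hp QBAT QpBpA (nsmulAddMonoidHom p) (fun c x => ?_) (fun x hx => ?_)
      (fun x hx => ?_) (fun y hy => ?_)
    · show p • (c • x) = c • (p • x)
      rw [smul_nsmul_comm']
    · exact nsmul_mem_pMul hx
    · show p • x ∈ pMul p A.sub ↔ x ∈ A.sub ⊔ pTor p B.sub
      constructor
      · intro h
        obtain ⟨a, ha, hax⟩ := mem_pMul.mp h
        refine AddSubgroup.mem_sup.mpr ⟨a, ha, x - a, ?_, by abel⟩
        refine mem_pTor.mpr ⟨B.sub.sub_mem hx (hAB ha), ?_⟩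
        rw [nsmul_sub, hax, sub_self]
      · intro h
        obtain ⟨a, ha, t, ht, rfl⟩ := AddSubgroup.mem_sup.mp h
        rw [nsmul_add, (mem_pTor.mp ht).2, add_zero]
        exact nsmul_mem_pMul ha
    · obtain ⟨b, hb, rfl⟩ := mem_pMul.mp hy
      refine ⟨b, hb, ?_⟩
      show p • b - p • b ∈ pMul p A.sub
      rw [sub_self]
      exact (pMul p A.sub).zero_mem
  -- (4) chain `A ≤ A + B[p] ≤ B`
  have e4 : d (QBA.obj hp) = d (QATA.obj hp) + d (QBAT.obj hp) :=
    hd.subQ_chain hp QATA QBAT QBA rfl rfl rfl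
  -- (5) `B[p] / A[p] ≅ (A + B[p]) / A`
  have e5 : d (QBtAt.obj hp) = d (QATA.obj hp) := by
    refine hd.subQ_map hp QBtAt QATA (AddMonoidHom.id M) (fun _ _ => rfl) (fun x hx => ?_)
      (fun x hx => ?_) (fun y hy => ?_)
    · exact le_sup_right (a := A.sub) hx
    · show x ∈ A.sub ↔ x ∈ pTor p A.sub
      rw [mem_pTor]
      exact ⟨fun h => ⟨h, (mem_pTor.mp hx).2⟩, fun h => h.1⟩
    · obtain ⟨a, ha, t, ht, rfl⟩ := AddSubgroup.mem_sup.mp hy
      refine ⟨t, ht, ?_⟩
      show a + t - t ∈ A.sub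
      rw [add_sub_cancel_right]
      exact ha
  -- (6) chain `0 ≤ A[p] ≤ B[p]`
  have e6 : d ((B.torQ p).obj hp) = d ((A.torQ p).obj hp) + d (QBtAt.obj hp) :=
    hd.subQ_chain hp (A.torQ p) QBtAt (B.torQ p) rfl rfl rfl
  unfold chi
  linarith

omit [DistribMulAction C M] [Module.Finite ℤ M] in
/-- On a finite quotient `B / A` with `B = A + pB`, multiplication by `p` is injective. -/
lemma pinj_of_psurj (A B : AddSubgroup M) (hfin : A.relIndex B ≠ 0)
    (hsurj : ∀ b ∈ B, ∃ a ∈ A, ∃ b' ∈ B, b = a + p • b') :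
    ∀ b ∈ B, p • b ∈ A → b ∈ A := by
  haveI : (A.addSubgroupOf B).FiniteIndex := ⟨hfin⟩
  haveI : Finite (↥B ⧸ A.addSubgroupOf B) := AddSubgroup.finite_quotient_of_finiteIndex
  set f : (↥B ⧸ A.addSubgroupOf B) →+ (↥B ⧸ A.addSubgroupOf B) := nsmulAddMonoidHom p with hf
  have hfs : Function.Surjective f := by
    intro q
    obtain ⟨b, rfl⟩ := QuotientAddGroup.mk_surjective q
    obtain ⟨a, ha, b', hb', hb⟩ := hsurj b b.2
    refine ⟨QuotientAddGroup.mk ⟨b', hb'⟩, ?_⟩
    show p • (QuotientAddGroup.mk ⟨b', hb'⟩ : ↥B ⧸ A.addSubgroupOf B) = QuotientAddGroup.mk b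
    rw [← QuotientAddGroup.mk_nsmul, QuotientAddGroup.eq]
    show -(p • (⟨b', hb'⟩ : ↥B) : ↥B).1 + b.1 ∈ A
    have : -(p • b') + (b : M) = a := by rw [hb]; abel
    rw [show ((p • (⟨b', hb'⟩ : ↥B) : ↥B) : M) = p • b' from rfl, this]
    exact ha
  have hfi : Function.Injective f := Finite.injective_iff_surjective.mpr hfs
  intro b hb hpb
  have h0 : f (QuotientAddGroup.mk ⟨b, hb⟩) = 0 := by
    show p • (QuotientAddGroup.mk ⟨b, hb⟩ : ↥B ⧸ A.addSubgroupOf B) = 0
    rw [← QuotientAddGroup.mk_nsmul, QuotientAddGroup.eq_zero_iff]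
    exact hpb
  have h1 := hfi (h0.trans (map_zero f).symm)
  rw [QuotientAddGroup.eq_zero_iff] at h1
  exact h1

/-- **Lattice lemma**: `χ(A) = χ(B)` for stable subgroups `A ≤ B` with `[B : A]` finite. -/
theorem chi_eq_of_relIndex_ne_zero {d : FinCMod p C → ℤ} (hd : IsAdditive d) (hp : p ≠ 0)
    (A : StabSub C M) :
    ∀ (n : ℕ) (B : StabSub C M), A.sub ≤ B.sub → A.sub.relIndex B.sub = n → n ≠ 0 →
      chi d hp A = chi d hp B := by
  intro n
  induction n using Nat.strong_induction_on with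
  | _ n ih =>
    intro B hAB hn hn0
    -- the intermediate subgroup `A + pB`
    let B' : StabSub C M :=
      { sub := A.sub ⊔ pMul p B.sub
        stable := by
          intro c x hx
          obtain ⟨a, ha, t, ht, rfl⟩ := AddSubgroup.mem_sup.mp hx
          rw [smul_add]
          exact AddSubgroup.mem_sup.mpr ⟨_, A.stable c a ha, _, B.stable_pMul c t ht, rfl⟩ }
    have hAB' : A.sub ≤ B'.sub := le_sup_left
    have hB'B : B'.sub ≤ B.sub := sup_le hAB (pMul_le B.sub)
    by_cases hBB' : B.sub ≤ B'.sub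
    · -- `B = A + pB`
      have hsurj : ∀ b ∈ B.sub, ∃ a ∈ A.sub, ∃ b' ∈ B.sub, b = a + p • b' := by
        intro b hb
        obtain ⟨a, ha, t, ht, rfl⟩ := AddSubgroup.mem_sup.mp (hBB' hb)
        obtain ⟨b', hb', rfl⟩ := mem_pMul.mp ht
        exact ⟨a, ha, b', hb', rfl⟩
      exact chi_eq_of_primeTo hd hp A B hAB hsurj
        (pinj_of_psurj A.sub B.sub (hn ▸ hn0) hsurj)
    · have hmul := AddSubgroup.relIndex_mul_relIndex A.sub B'.sub B.sub hAB' hB'B
      rw [hn] at hmul
      have h1 : B'.sub.relIndex B.sub ≠ 1 := fun h => hBB' (AddSubgroup.relIndex_eq_one.mp h)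
      have h0 : B'.sub.relIndex B.sub ≠ 0 := fun h => hn0 (by rw [← hmul, h, mul_zero])
      have h0' : A.sub.relIndex B'.sub ≠ 0 := fun h => hn0 (by rw [← hmul, h, zero_mul])
      have hlt : A.sub.relIndex B'.sub < n := by
        have h2 : 2 ≤ B'.sub.relIndex B.sub := by omega
        have h3 : 1 ≤ A.sub.relIndex B'.sub := by omega
        nlinarith
      have e1 := ih _ hlt B' hAB' rfl h0'
      have e2 := chi_eq_of_pMul_le hd hp B' B hB'B le_sup_right
      rw [e1, e2]

/-! ### The lattice lemma for maps -/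

omit [Module.Finite ℤ M] in
/-- The whole module as a stable subgroup. -/
def StabSub.top (C : Type) [Group C] (M : Type) [AddCommGroup M] [DistribMulAction C M] :
    StabSub C M where
  sub := ⊤
  stable := fun _ _ _ => AddSubgroup.mem_top _

/-- `χ(M) = d(M / pM) - d(M[p])`. -/
def chiTop (d : FinCMod p C → ℤ) (hp : p ≠ 0) (M : Type) [AddCommGroup M]
    [DistribMulAction C M] [Module.Finite ℤ M] : ℤ :=
  chi d hp (StabSub.top C M)

variable {M' : Type} [AddCommGroup M'] [DistribMulAction C M'] [Module.Finite ℤ M']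

/-- **Lattice lemma, map form**: an injective equivariant map `f : M' → M` of finitely generated
abelian groups with finite cokernel preserves `χ = d(M / pM) - d(M[p])`. -/
theorem chiTop_eq_of_injective {d : FinCMod p C → ℤ} (hd : IsAdditive d) (hp : p ≠ 0)
    (f : M' →+ M) (hf : Function.Injective f) (hfeq : ∀ (c : C) (x : M'), f (c • x) = c • f x)
    (hfin : f.range.index ≠ 0) :
    chiTop d hp M' = chiTop d hp M := by
  -- the image of `f`
  let R : StabSub C M :=
    { sub := f.range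
      stable := by
        rintro c _ ⟨x, rfl⟩
        exact ⟨c • x, hfeq c x⟩ }
  have e1 : chi d hp (StabSub.top C M') = chi d hp R := by
    unfold chi
    have h1 : d (((StabSub.top C M').modQ p).obj hp) = d ((R.modQ p).obj hp) := by
      refine hd.subQ_map hp _ _ f hfeq (fun x _ => ⟨x, rfl⟩) (fun x _ => ?_) (fun y hy => ?_)
      · show f x ∈ pMul p f.range ↔ x ∈ pMul p (⊤ : AddSubgroup M')
        constructor
        · intro h
          obtain ⟨_, ⟨y, rfl⟩, hy⟩ := mem_pMul.mp h
          rw [← map_nsmul] at hy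
          exact mem_pMul.mpr ⟨y, AddSubgroup.mem_top _, hf hy⟩
        · intro h
          obtain ⟨y, -, rfl⟩ := mem_pMul.mp h
          rw [map_nsmul]
          exact nsmul_mem_pMul ⟨y, rfl⟩
      · obtain ⟨x, rfl⟩ := hy
        refine ⟨x, AddSubgroup.mem_top _, ?_⟩
        rw [sub_self]
        exact (pMul p f.range).zero_mem
    have h2 : d (((StabSub.top C M').torQ p).obj hp) = d ((R.torQ p).obj hp) := by
      refine hd.subQ_map hp _ _ f hfeq (fun x hx => ?_) (fun x _ => ?_) (fun y hy => ?_)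
      · refine mem_pTor.mpr ⟨⟨x, rfl⟩, ?_⟩
        rw [← map_nsmul, (mem_pTor.mp hx).2, map_zero]
      · show f x ∈ (⊥ : AddSubgroup M) ↔ x ∈ (⊥ : AddSubgroup M')
        rw [AddSubgroup.mem_bot, AddSubgroup.mem_bot]
        exact ⟨fun h => hf (h.trans (map_zero f).symm), fun h => by rw [h, map_zero]⟩
      · obtain ⟨⟨x, rfl⟩, hx⟩ := mem_pTor.mp hy
        refine ⟨x, mem_pTor.mpr ⟨AddSubgroup.mem_top _, ?_⟩, ?_⟩
        · rw [← map_nsmul] at hx
          exact hf (hx.trans (map_zero f).symm)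
        · rw [sub_self]
          exact AddSubgroup.zero_mem _
    rw [h1, h2]
  have e2 : chi d hp R = chi d hp (StabSub.top C M) :=
    chi_eq_of_relIndex_ne_zero hd hp R _ (StabSub.top C M) le_top rfl (by
      show f.range.relIndex ⊤ ≠ 0
      rw [AddSubgroup.relIndex_top_right]
      exact hfin)
  unfold chiTop
  rw [e1, e2]

end Fermat.Agent.S56.EC
end
end MergeWrap_S56_W2_EC_LatticeMod

section MergeWrap_S56_W2_EC_ChiLemmas -- from S56/W2/EC/ChiLemmas.lean

set_option autoImplicit false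

noncomputable section

namespace Fermat.Agent.S56.EC

variable {p : ℕ} {C : Type} [Group C]

section Univ

variable (M : Type) [AddCommGroup M] [DistribMulAction C M] [Module.Finite ℤ M]

/-- `M / pM` as a `FinCMod`. -/
def modObj (hp : p ≠ 0) : FinCMod p C := ((StabSub.top C M).modQ p).obj hp

/-- `M[p]` as a `FinCMod`. -/
def torObj (hp : p ≠ 0) : FinCMod p C := ((StabSub.top C M).torQ p).obj hp

lemma chiTop_eq (d : FinCMod p C → ℤ) (hp : p ≠ 0) :
    chiTop d hp M = d (modObj (C := C) M hp) - d (torObj (C := C) M hp) := rfl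

variable {M}

/-- **Universal form of `M / pM`.** -/
theorem IsAdditive.d_modObj_eq {d : FinCMod p C → ℤ} (hd : IsAdditive d) (hp : p ≠ 0)
    (A : FinCMod p C) (π : M →+ A.carrier) (hπ : Function.Surjective π)
    (hC : ∀ (c : C) (x : M), π (c • x) = c • π x)
    (hker : ∀ x : M, π x = 0 → ∃ y : M, p • y = x) :
    d (modObj (C := C) M hp) = d A := by
  set Q : SubQ p C M := (StabSub.top C M).modQ p with hQ
  have hle : Q.bot.addSubgroupOf Q.top ≤ (π.comp Q.top.subtype).ker := by
    intro x hx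
    rw [AddSubgroup.mem_addSubgroupOf] at hx
    obtain ⟨b, -, hb⟩ := mem_pMul.mp hx
    rw [AddMonoidHom.mem_ker]
    show π (x : M) = 0
    rw [← hb, map_nsmul]
    exact A.killed _
  let φ : Q.Carrier →+ A.carrier := QuotientAddGroup.lift _ (π.comp Q.top.subtype) hle
  have hφ : ∀ x : ↥Q.top, φ (Q.cls x) = π (x : M) := fun x => rfl
  have h1 : ∀ (c : C) (y : Q.Carrier), φ (c • y) = c • φ y := by
    intro c y
    obtain ⟨x, rfl⟩ := Q.cls_surjective y
    rw [SubQ.smul_cls, hφ, hφ]
    exact hC c x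
  have h2 : Function.Injective φ := by
    rw [injective_iff_map_eq_zero]
    intro y hy
    obtain ⟨x, rfl⟩ := Q.cls_surjective y
    rw [hφ] at hy
    rw [SubQ.cls_eq_zero_iff]
    obtain ⟨z, hz⟩ := hker _ hy
    exact mem_pMul.mpr ⟨z, AddSubgroup.mem_top _, hz⟩
  have h3 : Function.Surjective φ := by
    intro a
    obtain ⟨x, rfl⟩ := hπ a
    exact ⟨Q.cls ⟨x, AddSubgroup.mem_top _⟩, rfl⟩
  exact hd.eq_of_bijective (Q.obj hp) A φ h1 ⟨h2, h3⟩

/-- **Universal form of `M[p]`.** -/
theorem IsAdditive.d_torObj_eq {d : FinCMod p C → ℤ} (hd : IsAdditive d) (hp : p ≠ 0)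
    (B : FinCMod p C) (ι : B.carrier →+ M) (hι : Function.Injective ι)
    (hC : ∀ (c : C) (b : B.carrier), ι (c • b) = c • ι b)
    (hrange : ∀ x : M, p • x = 0 → ∃ b : B.carrier, ι b = x) :
    d (torObj (C := C) M hp) = d B := by
  set Q : SubQ p C M := (StabSub.top C M).torQ p with hQ
  have hmem : ∀ b : B.carrier, ι b ∈ Q.top := fun b =>
    mem_pTor.mpr ⟨AddSubgroup.mem_top _, by rw [← map_nsmul, B.killed, map_zero]⟩
  let φ : B.carrier →+ Q.Carrier := Q.cls.comp (ι.codRestrict Q.top hmem)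
  have hφ : ∀ b : B.carrier, φ b = Q.cls ⟨ι b, hmem b⟩ := fun b => rfl
  have h1 : ∀ (c : C) (b : B.carrier), φ (c • b) = c • φ b := by
    intro c b
    rw [hφ, hφ, SubQ.smul_cls]
    congr 1
    exact Subtype.ext (hC c b)
  have h2 : Function.Injective φ := by
    rw [injective_iff_map_eq_zero]
    intro b hb
    rw [hφ, SubQ.cls_eq_zero_iff] at hb
    have hb' : ι b = 0 := (AddSubgroup.mem_bot).mp hb
    exact hι (hb'.trans (map_zero ι).symm)
  have h3 : Function.Surjective φ := by
    intro y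
    obtain ⟨x, rfl⟩ := Q.cls_surjective y
    obtain ⟨b, hb⟩ := hrange (x : M) (mem_pTor.mp x.2).2
    refine ⟨b, ?_⟩
    rw [hφ]
    congr 1
    exact Subtype.ext hb
  exact (hd.eq_of_bijective B (Q.obj hp) φ h1 ⟨h2, h3⟩).symm

/-- `d(M[p]) = 0` if `M` has no `p`-torsion. -/
theorem IsAdditive.d_torObj_eq_zero {d : FinCMod p C → ℤ} (hd : IsAdditive d) (hp : p ≠ 0)
    (htf : ∀ x : M, p • x = 0 → x = 0) : d (torObj (C := C) M hp) = 0 := by
  have hsub : Subsingleton ((StabSub.top C M).torQ p).Carrier := by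
    refine ⟨fun a b => ?_⟩
    obtain ⟨x, rfl⟩ := ((StabSub.top C M).torQ p).cls_surjective a
    obtain ⟨y, rfl⟩ := ((StabSub.top C M).torQ p).cls_surjective b
    have hx : (x : M) = 0 := htf _ (mem_pTor.mp x.2).2
    have hy : (y : M) = 0 := htf _ (mem_pTor.mp y.2).2
    have : x = y := Subtype.ext (hx.trans hy.symm)
    rw [this]
  have : Subsingleton (torObj (C := C) M hp).carrier := hsub
  exact hd.eq_zero_of_subsingleton _

/-- `d(M/pM) = 0` if `M = pM`. -/
theorem IsAdditive.d_modObj_eq_zero {d : FinCMod p C → ℤ} (hd : IsAdditive d) (hp : p ≠ 0)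
    (hdiv : ∀ x : M, ∃ y : M, p • y = x) : d (modObj (C := C) M hp) = 0 := by
  have hsub : Subsingleton ((StabSub.top C M).modQ p).Carrier := by
    refine ⟨fun a b => ?_⟩
    obtain ⟨x, rfl⟩ := ((StabSub.top C M).modQ p).cls_surjective a
    obtain ⟨y, rfl⟩ := ((StabSub.top C M).modQ p).cls_surjective b
    rw [SubQ.cls_eq_cls_iff]
    obtain ⟨z, hz⟩ := hdiv ((x : M) - (y : M))
    exact mem_pMul.mpr ⟨z, AddSubgroup.mem_top _, hz⟩
  have : Subsingleton (modObj (C := C) M hp).carrier := hsub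
  exact hd.eq_zero_of_subsingleton _

end Univ

section Finite

variable {M : Type} [AddCommGroup M] [DistribMulAction C M] [Module.Finite ℤ M]

/-- `χ` of a subsingleton is `0`. -/
theorem chiTop_eq_zero_of_subsingleton {d : FinCMod p C → ℤ} (hd : IsAdditive d) (hp : p ≠ 0)
    [Subsingleton M] : chiTop d hp M = 0 := by
  rw [chiTop_eq, hd.d_torObj_eq_zero hp (fun x _ => Subsingleton.elim _ _),
    hd.d_modObj_eq_zero hp (fun x => ⟨0, Subsingleton.elim _ _⟩), sub_zero]

/-- **`χ` of a finite module is `0`**: `d(M/pM) = d(M[p])`. -/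
theorem chiTop_eq_zero_of_finite {d : FinCMod p C → ℤ} (hd : IsAdditive d) (hp : p ≠ 0)
    [Finite M] : chiTop d hp M = 0 := by
  have h := chiTop_eq_of_injective (M := M) (M' := PUnit.{1}) hd hp (0 : PUnit.{1} →+ M)
    (fun a b _ => Subsingleton.elim _ _) (fun c x => (smul_zero c).symm)
    (by
      have : Finite (M ⧸ (0 : PUnit.{1} →+ M).range) := inferInstance
      exact AddSubgroup.index_ne_zero_of_finite)
  rw [← h]
  exact chiTop_eq_zero_of_subsingleton hd hp

/-- `d(M/pM) = d(M[p])` for finite `M`. -/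
theorem IsAdditive.d_modObj_eq_d_torObj {d : FinCMod p C → ℤ} (hd : IsAdditive d) (hp : p ≠ 0)
    [Finite M] : d (modObj (C := C) M hp) = d (torObj (C := C) M hp) := by
  have := chiTop_eq_zero_of_finite (M := M) hd hp
  rw [chiTop_eq] at this
  linarith

end Finite

section Prod

variable {M N : Type} [AddCommGroup M] [DistribMulAction C M] [Module.Finite ℤ M]
  [AddCommGroup N] [DistribMulAction C N] [Module.Finite ℤ N]

/-- `d((M × N)/p) = d(M/p) + d(N/p)`. -/
theorem IsAdditive.d_modObj_prod {d : FinCMod p C → ℤ} (hd : IsAdditive d) (hp : p ≠ 0) :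
    d (modObj (C := C) (M × N) hp) = d (modObj (C := C) M hp) + d (modObj (C := C) N hp) := by
  set QM : SubQ p C M := (StabSub.top C M).modQ p with hQM
  set QN : SubQ p C N := (StabSub.top C N).modQ p with hQN
  set QE : SubQ p C (M × N) := (StabSub.top C (M × N)).modQ p with hQE
  have hi_top : ∀ x ∈ QM.top, (AddMonoidHom.inl M N) x ∈ QE.top := fun _ _ => AddSubgroup.mem_top _
  have hi_bot : ∀ x ∈ QM.bot, (AddMonoidHom.inl M N) x ∈ QE.bot := by
    intro x hx
    obtain ⟨y, -, rfl⟩ := mem_pMul.mp hx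
    refine mem_pMul.mpr ⟨(y, 0), AddSubgroup.mem_top _, ?_⟩
    simp
  have hq_top : ∀ x ∈ QE.top, (AddMonoidHom.snd M N) x ∈ QN.top := fun _ _ => AddSubgroup.mem_top _
  have hq_bot : ∀ x ∈ QE.bot, (AddMonoidHom.snd M N) x ∈ QN.bot := by
    intro x hx
    obtain ⟨y, -, rfl⟩ := mem_pMul.mp hx
    exact mem_pMul.mpr ⟨y.2, AddSubgroup.mem_top _, rfl⟩
  let i : QM.Carrier →+ QE.Carrier := QM.map QE (AddMonoidHom.inl M N) hi_top hi_bot
  let q : QE.Carrier →+ QN.Carrier := QE.map QN (AddMonoidHom.snd M N) hq_top hq_bot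
  have h1 : ∀ (c : C) (a : QM.Carrier), i (c • a) = c • i a :=
    QM.map_smul QE _ hi_top hi_bot (fun c x => by
      show ((c • x, (0 : N)) : M × N) = c • ((x, 0) : M × N)
      rw [Prod.smul_mk, smul_zero])
  have h2 : ∀ (c : C) (e : QE.Carrier), q (c • e) = c • q e :=
    QE.map_smul QN _ hq_top hq_bot (fun c x => rfl)
  have h3 : Function.Injective i := by
    refine QM.map_injective QE _ hi_top hi_bot (fun x _ hx => ?_)
    obtain ⟨y, -, hy⟩ := mem_pMul.mp hx
    refine mem_pMul.mpr ⟨y.1, AddSubgroup.mem_top _, ?_⟩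
    exact congrArg Prod.fst hy
  have h4 : Function.Surjective q := by
    refine QE.map_surjective QN _ hq_top hq_bot (fun y _ => ⟨(0, y), AddSubgroup.mem_top _, ?_⟩)
    show y - y ∈ QN.bot
    rw [sub_self]
    exact QN.bot.zero_mem
  have h5 : ∀ e : QE.Carrier, q e = 0 ↔ e ∈ i.range := by
    intro e
    constructor
    · intro h
      obtain ⟨x, rfl⟩ := QE.cls_surjective e
      rw [SubQ.map_eq_zero_iff] at h
      obtain ⟨n', -, hn'⟩ := mem_pMul.mp h
      have hn'' : p • n' = (x : M × N).2 := hn'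
      refine ⟨QM.cls ⟨(x : M × N).1, AddSubgroup.mem_top _⟩, ?_⟩
      show QE.cls ⟨((x : M × N).1, 0), AddSubgroup.mem_top _⟩ = QE.cls x
      rw [SubQ.cls_eq_cls_iff]
      refine mem_pMul.mpr ⟨(0, -n'), AddSubgroup.mem_top _, ?_⟩
      refine Prod.ext ?_ ?_
      · show p • (0 : M) = (x : M × N).1 - (x : M × N).1
        rw [smul_zero, sub_self]
      · show p • (-n') = (0 : N) - (x : M × N).2
        rw [smul_neg, hn'', zero_sub]
    · rintro ⟨a, rfl⟩
      obtain ⟨m, rfl⟩ := QM.cls_surjective a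
      show q (QE.cls _) = 0
      rw [SubQ.map_eq_zero_iff]
      exact QN.bot.zero_mem
  exact hd (QM.obj hp) (QE.obj hp) (QN.obj hp) i q h1 h2 h3 h4 h5

/-- `d((M × N)[p]) = d(M[p]) + d(N[p])`. -/
theorem IsAdditive.d_torObj_prod {d : FinCMod p C → ℤ} (hd : IsAdditive d) (hp : p ≠ 0) :
    d (torObj (C := C) (M × N) hp) = d (torObj (C := C) M hp) + d (torObj (C := C) N hp) := by
  set QM : SubQ p C M := (StabSub.top C M).torQ p with hQM
  set QN : SubQ p C N := (StabSub.top C N).torQ p with hQN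
  set QE : SubQ p C (M × N) := (StabSub.top C (M × N)).torQ p with hQE
  have hi_top : ∀ x ∈ QM.top, (AddMonoidHom.inl M N) x ∈ QE.top := by
    intro x hx
    refine mem_pTor.mpr ⟨AddSubgroup.mem_top _, ?_⟩
    show p • ((x, 0) : M × N) = 0
    rw [Prod.smul_mk, (mem_pTor.mp hx).2, smul_zero]
    rfl
  have hi_bot : ∀ x ∈ QM.bot, (AddMonoidHom.inl M N) x ∈ QE.bot := by
    intro x hx
    have hx0 : x = 0 := AddSubgroup.mem_bot.mp hx
    rw [hx0, map_zero]
    exact QE.bot.zero_mem
  have hq_top : ∀ x ∈ QE.top, (AddMonoidHom.snd M N) x ∈ QN.top := by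
    intro x hx
    refine mem_pTor.mpr ⟨AddSubgroup.mem_top _, ?_⟩
    exact congrArg Prod.snd (mem_pTor.mp hx).2
  have hq_bot : ∀ x ∈ QE.bot, (AddMonoidHom.snd M N) x ∈ QN.bot := by
    intro x hx
    have hx0 : x = 0 := AddSubgroup.mem_bot.mp hx
    rw [hx0, map_zero]
    exact QN.bot.zero_mem
  let i : QM.Carrier →+ QE.Carrier := QM.map QE (AddMonoidHom.inl M N) hi_top hi_bot
  let q : QE.Carrier →+ QN.Carrier := QE.map QN (AddMonoidHom.snd M N) hq_top hq_bot
  have h1 : ∀ (c : C) (a : QM.Carrier), i (c • a) = c • i a :=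
    QM.map_smul QE _ hi_top hi_bot (fun c x => by
      show ((c • x, (0 : N)) : M × N) = c • ((x, 0) : M × N)
      rw [Prod.smul_mk, smul_zero])
  have h2 : ∀ (c : C) (e : QE.Carrier), q (c • e) = c • q e :=
    QE.map_smul QN _ hq_top hq_bot (fun c x => rfl)
  have h3 : Function.Injective i := by
    refine QM.map_injective QE _ hi_top hi_bot (fun x _ hx => ?_)
    have hx0 : ((x, 0) : M × N) = 0 := AddSubgroup.mem_bot.mp hx
    exact AddSubgroup.mem_bot.mpr (congrArg Prod.fst hx0)
  have h4 : Function.Surjective q := by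
    refine QE.map_surjective QN _ hq_top hq_bot (fun y hy => ⟨(0, y), ?_, ?_⟩)
    · refine mem_pTor.mpr ⟨AddSubgroup.mem_top _, ?_⟩
      show p • ((0, y) : M × N) = 0
      rw [Prod.smul_mk, (mem_pTor.mp hy).2, smul_zero]
      rfl
    · show y - y ∈ QN.bot
      rw [sub_self]
      exact QN.bot.zero_mem
  have h5 : ∀ e : QE.Carrier, q e = 0 ↔ e ∈ i.range := by
    intro e
    constructor
    · intro h
      obtain ⟨x, rfl⟩ := QE.cls_surjective e
      rw [SubQ.map_eq_zero_iff] at h
      have hx2 : (x : M × N).2 = 0 := AddSubgroup.mem_bot.mp h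
      have hx1 : p • (x : M × N).1 = 0 := congrArg Prod.fst (mem_pTor.mp x.2).2
      refine ⟨QM.cls ⟨(x : M × N).1, mem_pTor.mpr ⟨AddSubgroup.mem_top _, hx1⟩⟩, ?_⟩
      show QE.cls ⟨((x : M × N).1, 0), _⟩ = QE.cls x
      congr 1
      refine Subtype.ext (Prod.ext rfl ?_)
      show (0 : N) = (x : M × N).2
      rw [hx2]
    · rintro ⟨a, rfl⟩
      obtain ⟨m, rfl⟩ := QM.cls_surjective a
      show q (QE.cls _) = 0
      rw [SubQ.map_eq_zero_iff]
      exact QN.bot.zero_mem
  exact hd (QM.obj hp) (QE.obj hp) (QN.obj hp) i q h1 h2 h3 h4 h5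

/-- **`χ(M × N) = χ(M) + χ(N)`.** -/
theorem chiTop_prod {d : FinCMod p C → ℤ} (hd : IsAdditive d) (hp : p ≠ 0) :
    chiTop d hp (M × N) = chiTop d hp M + chiTop d hp N := by
  rw [chiTop_eq, chiTop_eq, chiTop_eq, hd.d_modObj_prod hp, hd.d_torObj_prod hp]
  ring

end Prod

end Fermat.Agent.S56.EC
end
end MergeWrap_S56_W2_EC_ChiLemmas

section MergeWrap_S56_W2_EC_PermMod -- from S56/W2/EC/PermMod.lean

set_option autoImplicit false

noncomputable section

namespace Fermat.Agent.S56.EC

variable {p : ℕ} {C : Type} [Group C]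

/-! ### Permutation modules -/

/-- The permutation module `R^X` of an action `act : C →* Equiv.Perm X`. -/
def PermMod {X : Type} (_act : C →* Equiv.Perm X) (R : Type) : Type := X → R

namespace PermMod

variable {X : Type} (act : C →* Equiv.Perm X) (R : Type) [AddCommGroup R]

instance : AddCommGroup (PermMod act R) := inferInstanceAs (AddCommGroup (X → R))

instance : DistribMulAction C (PermMod act R) where
  smul c f := fun x => f ((act c)⁻¹ x)
  one_smul f := by
    funext x
    show f ((act 1)⁻¹ x) = f x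
    rw [map_one, inv_one, Equiv.Perm.one_apply]
  mul_smul c c' f := by
    funext x
    show f ((act (c * c'))⁻¹ x) = f ((act c')⁻¹ ((act c)⁻¹ x))
    rw [map_mul, mul_inv_rev, Equiv.Perm.mul_apply]
  smul_zero c := rfl
  smul_add c f g := rfl

variable {act R}

lemma smul_apply (c : C) (f : PermMod act R) (x : X) : (c • f) x = f ((act c)⁻¹ x) := rfl

lemma add_apply (f g : PermMod act R) (x : X) : (f + g) x = f x + g x := rfl

lemma zero_apply (x : X) : (0 : PermMod act R) x = 0 := rfl

lemma nsmul_apply (n : ℕ) (f : PermMod act R) (x : X) : (n • f) x = n • f x := rfl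

omit [AddCommGroup R] in
@[ext] lemma ext {f g : PermMod act R} (h : ∀ x, f x = g x) : f = g := funext h

instance [Finite X] : Module.Finite ℤ (PermMod act ℤ) := by
  have h : AddGroup.FG (X → ℤ) := by
    have : Fintype X := Fintype.ofFinite X
    exact Module.Finite.iff_addGroup_fg.mp inferInstance
  exact Module.Finite.iff_addGroup_fg.mpr h

end PermMod

/-- `𝔽_p^X` as a `FinCMod`. -/
def permObj (p : ℕ) [NeZero p] {X : Type} [Finite X] (act : C →* Equiv.Perm X) : FinCMod p C :=
  { carrier := PermMod act (ZMod p)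
    isFinite := inferInstanceAs (Finite (X → ZMod p))
    killed := fun f => by
      funext x
      show p • f x = 0
      rw [nsmul_eq_mul, ZMod.natCast_self, zero_mul] }

/-- **`χ(ℤ^X) = d(𝔽_p^X)`.** -/
theorem chiTop_permMod [NeZero p] {d : FinCMod p C → ℤ} (hd : IsAdditive d) (hp : p ≠ 0)
    {X : Type} [Finite X] (act : C →* Equiv.Perm X) :
    chiTop d hp (PermMod act ℤ) = d (permObj p act) := by
  let π : PermMod act ℤ →+ (permObj p act).carrier :=
    { toFun := fun f => (fun x => ((f x : ℤ) : ZMod p) : PermMod act (ZMod p))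
      map_zero' := by
        funext x
        show (((0 : ℤ) : ZMod p)) = 0
        exact Int.cast_zero
      map_add' := fun f g => by
        funext x
        show (((f x + g x : ℤ)) : ZMod p) = (f x : ZMod p) + (g x : ZMod p)
        exact Int.cast_add _ _ }
  have hπ : ∀ (f : PermMod act ℤ) (x : X), (π f : PermMod act (ZMod p)) x = ((f x : ℤ) : ZMod p) :=
    fun _ _ => rfl
  have h1 : d (modObj (C := C) (PermMod act ℤ) hp) = d (permObj p act) := by
    refine hd.d_modObj_eq hp (permObj p act) π ?_ (fun c f => rfl) ?_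
    · intro g
      refine ⟨(fun x => ((g : PermMod act (ZMod p)) x).val : PermMod act ℤ), ?_⟩
      funext x
      show (((((g : PermMod act (ZMod p)) x).val : ℕ) : ℤ) : ZMod p) = (g : PermMod act (ZMod p)) x
      rw [Int.cast_natCast, ZMod.natCast_zmod_val]
    · intro f hf
      have hdiv : ∀ x, (p : ℤ) ∣ f x := by
        intro x
        rw [← ZMod.intCast_zmod_eq_zero_iff_dvd]
        have := congrFun hf x
        exact this
      refine ⟨(fun x => f x / (p : ℤ) : PermMod act ℤ), ?_⟩
      funext x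
      show p • (f x / (p : ℤ)) = f x
      rw [nsmul_eq_mul]
      exact Int.mul_ediv_cancel' (hdiv x)
  have h2 : d (torObj (C := C) (PermMod act ℤ) hp) = 0 := by
    refine hd.d_torObj_eq_zero hp (fun f hf => ?_)
    funext x
    have h := congrFun hf x
    have h' : p • f x = 0 := h
    rw [nsmul_eq_mul] at h'
    rcases mul_eq_zero.mp h' with h0 | h0
    · exact absurd (by exact_mod_cast h0) hp
    · exact h0
  rw [chiTop_eq, h1, h2, sub_zero]

/-- Equivariant bijections of the sets give the same class. -/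
theorem IsAdditive.d_permObj_congr [NeZero p] {d : FinCMod p C → ℤ} (hd : IsAdditive d)
    {X Y : Type} [Finite X] [Finite Y] (act : C →* Equiv.Perm X) (act' : C →* Equiv.Perm Y)
    (e : X ≃ Y) (he : ∀ (c : C) (x : X), e (act c x) = act' c (e x)) :
    d (permObj p act) = d (permObj p act') := by
  let φ : PermMod act (ZMod p) →+ PermMod act' (ZMod p) :=
    { toFun := fun f => (fun y => f (e.symm y) : PermMod act' (ZMod p))
      map_zero' := rfl
      map_add' := fun _ _ => rfl }
  have he' : ∀ (c : C) (y : Y), e.symm ((act' c)⁻¹ y) = (act c)⁻¹ (e.symm y) := by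
    intro c y
    apply (act c).injective
    apply e.injective
    have h1 : act' c ((act' c)⁻¹ y) = y := by
      rw [← Equiv.Perm.mul_apply, mul_inv_cancel, Equiv.Perm.one_apply]
    have h2 : act c ((act c)⁻¹ (e.symm y)) = e.symm y := by
      rw [← Equiv.Perm.mul_apply, mul_inv_cancel, Equiv.Perm.one_apply]
    rw [he, Equiv.apply_symm_apply, h1, h2, Equiv.apply_symm_apply]
  have h1 : ∀ (c : C) (f : PermMod act (ZMod p)), φ (c • f) = c • φ f := by
    intro c f
    funext y
    show f ((act c)⁻¹ (e.symm ((y)))) = f (e.symm ((act' c)⁻¹ y))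
    rw [he']
  have h2 : Function.Bijective φ := by
    constructor
    · intro f g hfg
      funext x
      have := congrFun hfg (e x)
      have h3 : f (e.symm (e x)) = g (e.symm (e x)) := this
      rwa [Equiv.symm_apply_apply] at h3
    · intro g
      refine ⟨(fun x => g (e x) : PermMod act (ZMod p)), ?_⟩
      funext y
      show g (e (e.symm y)) = g y
      rw [Equiv.apply_symm_apply]
  exact hd.eq_of_bijective (permObj p act) (permObj p act') φ h1 h2

/-- The action on a disjoint union. -/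
def sumAct {X Y : Type} (act : C →* Equiv.Perm X) (act' : C →* Equiv.Perm Y) :
    C →* Equiv.Perm (X ⊕ Y) :=
  (Equiv.Perm.sumCongrHom X Y).comp (act.prod act')

lemma sumAct_inl {X Y : Type} (act : C →* Equiv.Perm X) (act' : C →* Equiv.Perm Y) (c : C)
    (x : X) : sumAct act act' c (Sum.inl x) = Sum.inl (act c x) := rfl

lemma sumAct_inr {X Y : Type} (act : C →* Equiv.Perm X) (act' : C →* Equiv.Perm Y) (c : C)
    (y : Y) : sumAct act act' c (Sum.inr y) = Sum.inr (act' c y) := rfl

lemma sumAct_inv_inl {X Y : Type} (act : C →* Equiv.Perm X) (act' : C →* Equiv.Perm Y) (c : C)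
    (x : X) : (sumAct act act' c)⁻¹ (Sum.inl x) = Sum.inl ((act c)⁻¹ x) := by
  rw [← map_inv, sumAct_inl, map_inv]

lemma sumAct_inv_inr {X Y : Type} (act : C →* Equiv.Perm X) (act' : C →* Equiv.Perm Y) (c : C)
    (y : Y) : (sumAct act act' c)⁻¹ (Sum.inr y) = Sum.inr ((act' c)⁻¹ y) := by
  rw [← map_inv, sumAct_inr, map_inv]

/-- **`d(𝔽_p^{X ⊕ Y}) = d(𝔽_p^X) + d(𝔽_p^Y)`.** -/
theorem IsAdditive.d_permObj_sum [NeZero p] {d : FinCMod p C → ℤ} (hd : IsAdditive d)
    {X Y : Type} [Finite X] [Finite Y] (act : C →* Equiv.Perm X) (act' : C →* Equiv.Perm Y) :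
    d (permObj p (sumAct act act')) = d (permObj p act) + d (permObj p act') := by
  -- extension by zero from `X`, restriction to `Y`
  let i : PermMod act (ZMod p) →+ PermMod (sumAct act act') (ZMod p) :=
    { toFun := fun f => (fun z => Sum.elim f (fun _ => 0) z : PermMod (sumAct act act') (ZMod p))
      map_zero' := by
        funext z
        rcases z with x | y <;> rfl
      map_add' := fun f g => by
        funext z
        rcases z with x | y
        · rfl
        · show (0 : ZMod p) = 0 + 0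
          rw [add_zero] }
  let q : PermMod (sumAct act act') (ZMod p) →+ PermMod act' (ZMod p) :=
    { toFun := fun f => (fun y => f (Sum.inr y) : PermMod act' (ZMod p))
      map_zero' := rfl
      map_add' := fun _ _ => rfl }
  have h1 : ∀ (c : C) (f : PermMod act (ZMod p)), i (c • f) = c • i f := by
    intro c f
    funext z
    rcases z with x | y
    · show f ((act c)⁻¹ x) = Sum.elim f (fun _ => 0) ((sumAct act act' c)⁻¹ (Sum.inl x))
      rw [sumAct_inv_inl]
      rfl
    · show (0 : ZMod p) = Sum.elim f (fun _ => 0) ((sumAct act act' c)⁻¹ (Sum.inr y))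
      rw [sumAct_inv_inr]
      rfl
  have h2 : ∀ (c : C) (f : PermMod (sumAct act act') (ZMod p)), q (c • f) = c • q f := by
    intro c f
    funext y
    show f ((sumAct act act' c)⁻¹ (Sum.inr y)) = f (Sum.inr ((act' c)⁻¹ y))
    rw [sumAct_inv_inr]
  have h3 : Function.Injective i := by
    intro f g hfg
    funext x
    exact congrFun hfg (Sum.inl x)
  have h4 : Function.Surjective q := by
    intro g
    refine ⟨(fun z => Sum.elim (fun _ => 0) g z : PermMod (sumAct act act') (ZMod p)), ?_⟩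
    funext y
    rfl
  have h5 : ∀ e : PermMod (sumAct act act') (ZMod p), q e = 0 ↔ e ∈ i.range := by
    intro e
    constructor
    · intro h
      refine ⟨(fun x => e (Sum.inl x) : PermMod act (ZMod p)), ?_⟩
      funext z
      rcases z with x | y
      · rfl
      · show (0 : ZMod p) = e (Sum.inr y)
        exact (congrFun h y).symm
    · rintro ⟨f, rfl⟩
      funext y
      rfl
  exact hd (permObj p act) (permObj p (sumAct act act')) (permObj p act') i q h1 h2 h3 h4 h5

/-! ### Trivial modules -/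

/-- `R` with the trivial action of `C`. -/
def TrivMod (_C : Type) (R : Type) : Type := R

namespace TrivMod

variable (C) (R : Type) [AddCommGroup R]

instance : AddCommGroup (TrivMod C R) := inferInstanceAs (AddCommGroup R)

instance : DistribMulAction C (TrivMod C R) where
  smul _ x := x
  one_smul _ := rfl
  mul_smul _ _ _ := rfl
  smul_zero _ := rfl
  smul_add _ _ _ := rfl

variable {C R}

lemma smul_eq (c : C) (x : TrivMod C R) : c • x = x := rfl

/-- `R → TrivMod C R`. -/
def of : R →+ TrivMod C R := AddMonoidHom.id R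

/-- `TrivMod C R → R`. -/
def val : TrivMod C R →+ R := AddMonoidHom.id R

@[simp] lemma val_of (r : R) : val (of (C := C) r) = r := rfl

@[simp] lemma of_val (x : TrivMod C R) : of (val x) = x := rfl

lemma val_injective : Function.Injective (val : TrivMod C R → R) := fun _ _ h => h

instance : Module.Finite ℤ (TrivMod C ℤ) := by
  have h : AddGroup.FG ℤ := Module.Finite.iff_addGroup_fg.mp inferInstance
  exact Module.Finite.iff_addGroup_fg.mpr h

end TrivMod

/-- `𝔽_p` with the trivial action, as a `FinCMod`. -/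
def trivObj (p : ℕ) [NeZero p] (C : Type) [Group C] : FinCMod p C :=
  { carrier := TrivMod C (ZMod p)
    isFinite := inferInstanceAs (Finite (ZMod p))
    killed := fun x => by
      apply TrivMod.val_injective
      rw [map_nsmul, map_zero, nsmul_eq_mul, ZMod.natCast_self, zero_mul] }

/-- **`χ(ℤ) = d(𝔽_p)`** (trivial action). -/
theorem chiTop_trivMod [NeZero p] {d : FinCMod p C → ℤ} (hd : IsAdditive d) (hp : p ≠ 0) :
    chiTop d hp (TrivMod C ℤ) = d (trivObj p C) := by
  let π : TrivMod C ℤ →+ TrivMod C (ZMod p) :=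
    (TrivMod.of (C := C) (R := ZMod p)).comp ((Int.castAddHom (ZMod p)).comp TrivMod.val)
  have hπ : ∀ n : TrivMod C ℤ, TrivMod.val (π n) = ((TrivMod.val n : ℤ) : ZMod p) := fun _ => rfl
  have h1 : d (modObj (C := C) (TrivMod C ℤ) hp) = d (trivObj p C) := by
    have hs : Function.Surjective π := by
      intro g
      refine ⟨TrivMod.of (((TrivMod.val g : ZMod p).val : ℕ) : ℤ), ?_⟩
      apply TrivMod.val_injective
      rw [hπ, TrivMod.val_of, Int.cast_natCast, ZMod.natCast_zmod_val]
    have hk : ∀ n : TrivMod C ℤ, π n = 0 → ∃ m : TrivMod C ℤ, p • m = n := by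
      intro n hn
      have hn' : ((TrivMod.val n : ℤ) : ZMod p) = 0 := by
        rw [← hπ, hn, map_zero]
      have hdiv : (p : ℤ) ∣ TrivMod.val n := (ZMod.intCast_zmod_eq_zero_iff_dvd _ _).mp hn'
      refine ⟨TrivMod.of (TrivMod.val n / (p : ℤ)), ?_⟩
      apply TrivMod.val_injective
      rw [map_nsmul, TrivMod.val_of, nsmul_eq_mul]
      exact Int.mul_ediv_cancel' hdiv
    exact hd.d_modObj_eq hp (trivObj p C) π hs (fun c f => rfl) hk
  have h2 : d (torObj (C := C) (TrivMod C ℤ) hp) = 0 := by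
    refine hd.d_torObj_eq_zero hp (fun n hn => ?_)
    apply TrivMod.val_injective
    have h' : p • (TrivMod.val n : ℤ) = 0 := by
      rw [← map_nsmul, hn, map_zero]
    rw [nsmul_eq_mul] at h'
    rcases mul_eq_zero.mp h' with h0 | h0
    · exact absurd (by exact_mod_cast h0) hp
    · rw [h0, map_zero]
  rw [chiTop_eq, h1, h2, sub_zero]

end Fermat.Agent.S56.EC
end
end MergeWrap_S56_W2_EC_PermMod
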