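import Fermat.Agent.MU.S56.W2.EC.Additive
import Fermat.Agent.MU.F4.PT.Abs.Sha
import Fermat.Agent.MU.F4.PT.Bridge

section MergeWrap_S56_W2_EC_LowerAbs -- from S56/W2/EC/LowerAbs.lean

set_option autoImplicit false
set_option linter.style.haveILetI false

open CategoryTheory groupCohomology ExtCitation Module

namespace Fermat.Agent.S56.EC

open Fermat.Agent.F4

/-! ### Complex conjugation and the twisted dual -/

section Conj

variable {p : ℕ} [Fact p.Prime]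

/-- `χ_p(c) = -1`. -/
lemma ecl_cycloChar_conj : cycloChar p complexConjugation = -1 := by
  haveI : NeZero p := ⟨(Fact.out : p.Prime).ne_zero⟩
  apply Units.ext
  rw [Units.val_neg, Units.val_one]
  symm
  show (-1 : ZMod p) = ((modularCyclotomicCharacter (AlgebraicClosure ℚ)
    (card_rootsOfUnity_eq_self p)
      (complexConjugation : AlgebraicClosure ℚ ≃+* AlgebraicClosure ℚ) : (ZMod p)ˣ) : ZMod p)
  apply modularCyclotomicCharacter.unique
  intro t ht
  have ht' : ((t : (AlgebraicClosure ℚ)ˣ) : AlgebraicClosure ℚ) ^ p = 1 := by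
    have := (mem_rootsOfUnity p t).mp ht
    rw [← Units.val_pow_eq_pow_val, this, Units.val_one]
  show complexConjugation (t : AlgebraicClosure ℚ) = _
  rw [Fermat.Agent.Cyclo.complexConjugation_root p ht']
  obtain ⟨m, hm⟩ := Nat.exists_eq_succ_of_ne_zero (Fact.out : p.Prime).ne_zero
  subst hm
  rw [ZMod.val_neg_one]
  have ht0 : ((t : (AlgebraicClosure ℚ)ˣ) : AlgebraicClosure ℚ) ≠ 0 := t.ne_zero
  rw [pow_succ] at ht'
  exact inv_eq_of_mul_eq_one_left ht'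

variable (A : Rep.{0} (ZMod p) GQ)

/-- `c - 1` on `A`. -/
noncomputable def eclT : A →ₗ[ZMod p] A := A.ρ complexConjugation - LinearMap.id

lemma eclT_apply (a : A) : eclT A a = A.ρ complexConjugation a - a := rfl

lemma ecl_ker_T : LinearMap.ker (eclT A) = H0arch A := by
  ext a
  rw [LinearMap.mem_ker, eclT_apply]
  show A.ρ complexConjugation a - a = 0 ↔ A.ρ complexConjugation a = a
  exact sub_eq_zero

/-- `(A^*(1))^{c=-1}` is the annihilator of `(c - 1) A`. -/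
lemma ecl_mem_negArch_iff (f : Module.Dual (ZMod p) A) :
    (show ↑(A.dualTwist (cycloChar p)) from f) ∈ negArch (A.dualTwist (cycloChar p)) ↔
      f ∈ (LinearMap.range (eclT A)).dualAnnihilator := by
  rw [Submodule.mem_dualAnnihilator]
  show (A.dualTwist (cycloChar p)).ρ complexConjugation f = -f ↔ _
  rw [Rep.dualTwist_ρ_apply, ecl_cycloChar_conj, complexConjugation_inv, Units.val_neg,
    Units.val_one]
  have key : ∀ a : A, ((-1 : ZMod p) • (f ∘ₗ A.ρ complexConjugation)) a =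
      -(f (A.ρ complexConjugation a)) := fun a => by
    rw [LinearMap.smul_apply, LinearMap.comp_apply, neg_smul, one_smul]
  constructor
  · rintro h w ⟨a, rfl⟩
    have h1 := congrArg (fun φ : Module.Dual (ZMod p) A => φ a) h
    simp only [key, LinearMap.neg_apply, neg_inj] at h1
    rw [eclT_apply, map_sub, sub_eq_zero]
    exact h1
  · intro h
    refine LinearMap.ext fun a => ?_
    have := h _ ⟨a, rfl⟩
    rw [eclT_apply, map_sub, sub_eq_zero] at this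
    rw [key, LinearMap.neg_apply, this]

/-- `dim (A^*(1))^{c=-1} = dim A^{c=1}`. -/
theorem ecl_finrank_negArch_dualTwist [Module.Finite (ZMod p) A] :
    finrank (ZMod p) ↥(negArch (A.dualTwist (cycloChar p))) = finrank (ZMod p) ↥(H0arch A) := by
  have e : finrank (ZMod p) ↥(negArch (A.dualTwist (cycloChar p))) =
      finrank (ZMod p) ↥((LinearMap.range (eclT A)).dualAnnihilator) := by
    refine LinearEquiv.finrank_eq
      { toFun := fun f => ⟨f.1, (ecl_mem_negArch_iff A f.1).1 f.2⟩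
        invFun := fun f => ⟨f.1, (ecl_mem_negArch_iff A f.1).2 f.2⟩
        map_add' := fun _ _ => rfl
        map_smul' := fun _ _ => rfl
        left_inv := fun _ => rfl
        right_inv := fun _ => rfl }
  have e1 := Subspace.finrank_add_finrank_dualAnnihilator_eq (LinearMap.range (eclT A))
  have e2 := LinearMap.finrank_range_add_finrank_ker (eclT A)
  rw [ecl_ker_T] at e2
  omega

end Conj

/-! ### `HH^i(Hom(M', B[0])) = H^i(M)` for `θ : M ≃ Hom(M', B)`, `i = 0, 1` -/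

section Theta

variable {k G : Type} [Field k] [Group G] (𝓤 : Levels G) {M M' B : Rep.{0} k G}
  (θ : M ≃ₗ[k] (M' →ₗ[k] B))
  (hθ : ∀ (g : G) (m : M) (m' : M'), θ (M.ρ g m) m' = B.ρ g (θ m (M'.ρ g⁻¹ m')))

lemma ecl_K1_eq (b b' : (homCx M' (Cx.deg0 B)).K1) : b = b' :=
  LinearMap.ext fun _ => Subsingleton.elim (α := PUnit.{1}) _ _

/-- `θ` as a morphism of complexes `M[0] → Hom(M', B[0])`. -/
def eclPhi : CxHom (Cx.deg0 M) (homCx M' (Cx.deg0 B)) where
  f0 := ptθ θ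
  f1 := 0
  comm0 := ptθ_equivariant θ hθ
  comm1 _ _ := ecl_K1_eq _ _
  commd _ := ecl_K1_eq _ _

include hθ in
lemma ecl_ptθs_equivariant (g : G) (f : (homCx M' (Cx.deg0 B)).K0) :
    ptθs θ ((homCx M' (Cx.deg0 B)).K0.ρ g f) = M.ρ g (ptθs θ f) := by
  apply ptθ_injective (A := B) θ
  rw [ptθ_ptθs, ptθ_equivariant θ hθ, ptθ_ptθs]

/-- `θ⁻¹` as a morphism of complexes `Hom(M', B[0]) → M[0]`. -/
def eclPsi : CxHom (homCx M' (Cx.deg0 B)) (Cx.deg0 M) where
  f0 := ptθs θ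
  f1 := 0
  comm0 := ecl_ptθs_equivariant θ hθ
  comm1 _ _ := rfl
  commd _ := rfl

lemma eclPhi_t1_eclPsi_t1 (z : T1 (homCx M' (Cx.deg0 B))) :
    (eclPhi θ hθ).t1 ((eclPsi θ hθ).t1 z) = z :=
  Prod.ext (funext fun g => ptθ_ptθs θ (z.1 g)) (ecl_K1_eq _ _)

lemma eclPsi_t1_eclPhi_t1 (z : T1 (Cx.deg0 M)) :
    (eclPsi θ hθ).t1 ((eclPhi θ hθ).t1 z) = z :=
  Prod.ext (funext fun g => ptθs_ptθ θ (z.1 g)) rfl

/-- `HH¹(Hom(M', B[0])) = HH¹(M[0])`. -/
def eclHH1' : HH1 𝓤 (homCx M' (Cx.deg0 B)) ≃ₗ[k] HH1 𝓤 (Cx.deg0 M) :=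
  LinearEquiv.ofLinearMap ((eclPsi θ hθ).hh1 𝓤) ((eclPhi θ hθ).hh1 𝓤)
    (LinearMap.ext fun y => by
      obtain ⟨z, rfl⟩ := HH1π_surjective 𝓤 _ y
      show HH1π 𝓤 _ ((eclPsi θ hθ).zz1 𝓤 ((eclPhi θ hθ).zz1 𝓤 z)) = HH1π 𝓤 _ z
      congr 1
      exact Subtype.ext (eclPsi_t1_eclPhi_t1 θ hθ z.1))
    (LinearMap.ext fun y => by
      obtain ⟨z, rfl⟩ := HH1π_surjective 𝓤 _ y
      show HH1π 𝓤 _ ((eclPhi θ hθ).zz1 𝓤 ((eclPsi θ hθ).zz1 𝓤 z)) = HH1π 𝓤 _ z
      congr 1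
      exact Subtype.ext (eclPhi_t1_eclPsi_t1 θ hθ z.1))

/-- `HH¹(Hom(M', B[0])) = H¹(M)`. -/
def eclHH1 : HH1 𝓤 (homCx M' (Cx.deg0 B)) ≃ₗ[k] H1sm 𝓤 M :=
  (eclHH1' 𝓤 θ hθ).trans (ecaddH1 𝓤 M)

/-- The class of `θ ∘ y` corresponds to the class of `y`. -/
lemma eclHH1_symm_mk (y : ↥(Z1 𝓤 M)) :
    (eclHH1 𝓤 θ hθ).symm (H1smπ 𝓤 M y) =
      HH1π 𝓤 _ ((eclPhi θ hθ).zz1 𝓤 ((ecaddZ1 𝓤 M).symm y)) := rfl

lemma eclHH1_symm_mk_coe (y : ↥(Z1 𝓤 M)) :
    (((eclPhi θ hθ).zz1 𝓤 ((ecaddZ1 𝓤 M).symm y) : ↥(ZZ1 𝓤 (homCx M' (Cx.deg0 B)))) :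
      T1 (homCx M' (Cx.deg0 B))) = ptToHom1 θ y.1 :=
  Prod.ext rfl (ecl_K1_eq _ _)

include θ hθ in
/-- `dim HH⁰(Hom(M', B[0])) = dim M^G`. -/
lemma ecl_finrank_HH0 :
    finrank k ↥(HH0 (homCx M' (Cx.deg0 B))) = finrank k ↥(ddtInv M) := by
  rw [← ecadd_finrank_HH0_deg0]
  refine LinearEquiv.finrank_eq
    (LinearEquiv.ofLinearMap ((eclPsi θ hθ).hh0) ((eclPhi θ hθ).hh0)
      (LinearMap.ext fun y => Subtype.ext (ptθs_ptθ θ y.1))
      (LinearMap.ext fun y => Subtype.ext (ptθ_ptθs θ y.1)))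

include θ hθ in
lemma ecl_finite_HH0 [hfin : Module.Finite k M] :
    Module.Finite k ↥(HH0 (homCx M' (Cx.deg0 B))) := by
  have : Module.Finite k ↥(HH0 (Cx.deg0 M)) := ecadd_finite_HH0_deg0 M
  exact Module.Finite.equiv
    (LinearEquiv.ofLinearMap ((eclPhi θ hθ).hh0) ((eclPsi θ hθ).hh0)
      (LinearMap.ext fun y => Subtype.ext (ptθ_ptθs θ y.1))
      (LinearMap.ext fun y => Subtype.ext (ptθs_ptθ θ y.1)))

end Theta

/-! ### The second-variable sequence and the lower bound -/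

section Lower

variable {p : ℕ} [Fact p.Prime] {S : Finset Nat.Primes} (D : GlobalDatum p S)

/-- A module with a finite submodule `ker f` and `f` into a finite module is finite. -/
lemma ecl_finite_of_ker_range {V W : Type} [AddCommGroup V] [Module (ZMod p) V]
    [AddCommGroup W] [Module (ZMod p) W] (f : V →ₗ[ZMod p] W) [Module.Finite (ZMod p) W]
    [Module.Finite (ZMod p) ↥(LinearMap.ker f)] : Module.Finite (ZMod p) V := by
  have : Module.Finite (ZMod p) (V ⧸ LinearMap.ker f) :=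
    Module.Finite.equiv f.quotKerEquivRange.symm
  exact Module.Finite.of_submodule_quotient (LinearMap.ker f)

/-- `Hom_G(N, K_C)` is finite if `Hom_G(N, K_J)` is. -/
theorem ecl_finite_HH0_KC (N : Rep.{0} (ZMod p) GQ) (hN : IsSmooth (levelsS S) N)
    (hfin : Module.Finite (ZMod p) N) (M : Rep.{0} (ZMod p) GQ) [Module.Finite (ZMod p) M]
    (hM : IsSmooth (levelsS S) M)
    (θ : M ≃ₗ[ZMod p] (N →ₗ[ZMod p] Fp1 p))
    (hθ : ∀ (g : GQ) (m : M) (n : N), θ (M.ρ g m) n = (Fp1 p).ρ g (θ m (N.ρ g⁻¹ n)))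
    [Module.Finite (ZMod p) ↥(HH0 (homCx N D.KJ))] :
    Module.Finite (ZMod p) ↥(HH0 (homCx N D.KC)) := by
  have hS := pta_ses D N
  have hK := pta_smoothJ D N hN hfin
  have h1 : Module.Finite (ZMod p) (H1sm (levelsS S) M) :=
    finite_H1sm_primeTo (levelsS S) D.finH1 M hM inferInstance
  have h2 : Module.Finite (ZMod p) (HH1 (levelsS S) (homCx N (Cx.deg0 (Fp1 p)))) :=
    Module.Finite.equiv (eclHH1 (levelsS S) θ hθ).symm
  have h3 : Module.Finite (ZMod p) ↥(LinearMap.ker (hS.conn0 (𝓤 := levelsS S) hK)) := by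
    have e2 : LinearMap.ker (hS.conn0 (𝓤 := levelsS S) hK) =
        LinearMap.range ((homCxPost N D.g).hh0) := by
      ext x
      rw [LinearMap.mem_ker, LinearMap.mem_range]
      exact CxShortExact.exact_HH0_right hS hK x
    rw [e2]
    infer_instance
  exact ecl_finite_of_ker_range (hS.conn0 (𝓤 := levelsS S) hK)

/-- `Hom_G(N, K_J)` is finite if `Hom_G(N, K_C)` is. -/
theorem ecl_finite_HH0_KJ (N : Rep.{0} (ZMod p) GQ)
    (M : Rep.{0} (ZMod p) GQ) [Module.Finite (ZMod p) M]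
    (θ : M ≃ₗ[ZMod p] (N →ₗ[ZMod p] Fp1 p))
    (hθ : ∀ (g : GQ) (m : M) (n : N), θ (M.ρ g m) n = (Fp1 p).ρ g (θ m (N.ρ g⁻¹ n)))
    [Module.Finite (ZMod p) ↥(HH0 (homCx N D.KC))] :
    Module.Finite (ZMod p) ↥(HH0 (homCx N D.KJ)) := by
  have hS := pta_ses D N
  have h1 : Module.Finite (ZMod p) ↥(HH0 (homCx N (Cx.deg0 (Fp1 p)))) := ecl_finite_HH0 θ hθ
  have h3 : Module.Finite (ZMod p) ↥(LinearMap.ker ((homCxPost N D.g).hh0)) := by
    have e1 : LinearMap.ker ((homCxPost N D.g).hh0) =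
        LinearMap.range ((homCxPost N D.f).hh0) := by
      ext x
      rw [LinearMap.mem_ker, LinearMap.mem_range]
      exact ecadd_exact_HH0_mid hS x
    rw [e1]
    infer_instance
  exact ecl_finite_of_ker_range ((homCxPost N D.g).hh0)

/-- `#V = p ^ dim V`. -/
lemma ecl_card (V : Type) [AddCommGroup V] [Module (ZMod p) V] [Module.Finite (ZMod p) V] :
    Nat.card V = p ^ finrank (ZMod p) V := by
  rw [Module.natCard_eq_pow_finrank (K := ZMod p), Nat.card_zmod]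

/-- **(E), abstract form.**  The lower bound of `ECLower` for `A` from Tate's formula
`Ψ(A^*(1)) = 0` and the two Shapiro inputs for `KJ`:
`hSh0` (degree `0`) and `hSh1` (degree `1`: the classes of `Ш¹_S(A)` die in
`HH¹(Hom(A^*(1), KJ))`). -/
theorem ecLowerAbs (hp2 : p ≠ 2) (hpS : pPrime p ∈ S) (A : Rep.{0} (ZMod p) GQ)
    (hfin : Module.Finite (ZMod p) A) (hA : IsSmooth (levelsS S) A)
    (θ : A ≃ₗ[ZMod p] (A.dualTwist (cycloChar p) →ₗ[ZMod p] Fp1 p))
    (hθ : ∀ (g : GQ) (m : A) (m' : A.dualTwist (cycloChar p)),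
      θ (A.ρ g m) m' = (Fp1 p).ρ g (θ m ((A.dualTwist (cycloChar p)).ρ g⁻¹ m')))
    (hΨ : psiK S D.KC (A.dualTwist (cycloChar p)) = 0)
    (hC : Module.Finite (ZMod p) ↥(HH0 (homCx (A.dualTwist (cycloChar p)) D.KC)))
    (hSh0 : ∑ v ∈ S, finrank (ZMod p) ↥(H0loc A v) ≤
      finrank (ZMod p) ↥(HH0 (homCx (A.dualTwist (cycloChar p)) D.KJ)))
    (hSh1 : ∀ y : ↥(Z1 (levelsS S) A), H1smπ (levelsS S) A y ∈ sha1sm S A →
      (homCxPost (A.dualTwist (cycloChar p)) D.f).t1 (ptToHom1 θ y.1) ∈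
        BB1 (homCx (A.dualTwist (cycloChar p)) D.KJ)) :
    Finite (H1sm (levelsS S) (A.dualTwist (cycloChar p))) ∧
    Nat.card (H0glob (A.dualTwist (cycloChar p))) * Nat.card (sha1sm S A) *
        (∏ v ∈ S, Nat.card (H0loc A v)) * Nat.card (H0arch A)
      ≤ Nat.card (H1sm (levelsS S) (A.dualTwist (cycloChar p))) * Nat.card (H0glob A) := by
  have _ := hp2
  have hA' : IsSmooth (levelsS S) (A.dualTwist (cycloChar p)) := isSmooth_dualTwist S hpS A hA
  have hfin' : Module.Finite (ZMod p) (A.dualTwist (cycloChar p)) := by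
    show Module.Finite (ZMod p) (Module.Dual (ZMod p) A)
    infer_instance
  have i1 : Module.Finite (ZMod p) (H1sm (levelsS S) (A.dualTwist (cycloChar p))) :=
    finite_H1sm_primeTo (levelsS S) D.finH1 _ hA' hfin'
  have i2 : Module.Finite (ZMod p) (H1sm (levelsS S) A) :=
    finite_H1sm_primeTo (levelsS S) D.finH1 _ hA hfin
  have i3 : Module.Finite (ZMod p) ↥(HH0 (homCx (A.dualTwist (cycloChar p)) D.KJ)) :=
    ecl_finite_HH0_KJ D _ A θ hθ
  have i4 : Module.Finite (ZMod p) ↥(HH0 (homCx (A.dualTwist (cycloChar p))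
      (Cx.deg0 (Fp1 p)))) := ecl_finite_HH0 θ hθ
  have i5 : Module.Finite (ZMod p) (HH1 (levelsS S) (homCx (A.dualTwist (cycloChar p))
      (Cx.deg0 (Fp1 p)))) := Module.Finite.equiv (eclHH1 (levelsS S) θ hθ).symm
  -- the second-variable count
  have c1 := ecadd_les_count (𝓤 := levelsS S) (pta_ses D (A.dualTwist (cycloChar p)))
    (pta_smoothJ D _ hA' hfin')
  rw [ecl_finrank_HH0 θ hθ, ← ecadd_H0glob_eq] at c1
  -- `Ш¹` dies in `HH¹(Hom(A', KJ))`
  have c2 : finrank (ZMod p) ↥(sha1sm S A) ≤ finrank (ZMod p)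
      ↥(LinearMap.ker ((homCxPost (A.dualTwist (cycloChar p)) D.f).hh1 (levelsS S))) := by
    rw [← LinearEquiv.finrank_map_eq (eclHH1 (levelsS S) θ hθ).symm (sha1sm S A)]
    refine Submodule.finrank_mono ?_
    rintro _ ⟨x, hx, rfl⟩
    obtain ⟨y, rfl⟩ := H1smπ_surjective (levelsS S) A x
    rw [LinearMap.mem_ker]
    show (homCxPost (A.dualTwist (cycloChar p)) D.f).hh1 (levelsS S)
      ((eclHH1 (levelsS S) θ hθ).symm (H1smπ (levelsS S) A y)) = 0
    rw [eclHH1_symm_mk, CxHom.hh1_mk, HH1π_eq_zero_iff]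
    have h1 := hSh1 y hx
    rw [← eclHH1_symm_mk_coe (levelsS S) θ hθ y] at h1
    exact h1
  -- Tate's formula
  have c3 := hΨ
  unfold psiK at c3
  rw [ecl_finrank_negArch_dualTwist] at c3
  -- the inequality of dimensions
  have key : finrank (ZMod p) ↥(H0glob (A.dualTwist (cycloChar p))) +
      finrank (ZMod p) ↥(sha1sm S A) + (∑ v ∈ S, finrank (ZMod p) ↥(H0loc A v)) +
        finrank (ZMod p) ↥(H0arch A) ≤
      finrank (ZMod p) (H1sm (levelsS S) (A.dualTwist (cycloChar p))) +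
        finrank (ZMod p) ↥(H0glob A) := by
    omega
  refine ⟨Module.finite_of_finite (ZMod p), ?_⟩
  have k1 : Nat.card ↥(H0glob (A.dualTwist (cycloChar p))) =
      p ^ finrank (ZMod p) ↥(H0glob (A.dualTwist (cycloChar p))) := ecl_card (p := p) _
  have k2 : Nat.card ↥(sha1sm S A) = p ^ finrank (ZMod p) ↥(sha1sm S A) := ecl_card (p := p) _
  have k3 : ∀ v : Nat.Primes, Nat.card ↥(H0loc A v) = p ^ finrank (ZMod p) ↥(H0loc A v) :=
    fun v => ecl_card (p := p) _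
  have k4 : Nat.card ↥(H0arch A) = p ^ finrank (ZMod p) ↥(H0arch A) := ecl_card (p := p) _
  have k5 : Nat.card (H1sm (levelsS S) (A.dualTwist (cycloChar p))) =
      p ^ finrank (ZMod p) (H1sm (levelsS S) (A.dualTwist (cycloChar p))) :=
    ecl_card (p := p) _
  have k6 : Nat.card ↥(H0glob A) = p ^ finrank (ZMod p) ↥(H0glob A) := ecl_card (p := p) _
  rw [k1, k2, k4, k5, k6, Finset.prod_congr rfl (fun v _ => k3 v), Finset.prod_pow_eq_pow_sum,
    ← pow_add, ← pow_add, ← pow_add, ← pow_add]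
  exact Nat.pow_le_pow_right (Fact.out : p.Prime).pos key

end Lower

end Fermat.Agent.S56.EC
end MergeWrap_S56_W2_EC_LowerAbs
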